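/-
S18lib / Squeeze / Dedekind (helper6): the EQUALITY CASE of the Riemann–Hurwitz lower bound
(`RHCount.sum_le_card_normalizedFactors_differentIdeal`).
`A ⊆ B` Dedekind, `B` finite torsion-free over `A`, separable fraction fields, all inertia degrees
one, `n = finrank A B`, `T` a finite set of nonzero maximal ideals of `A`.  If
`deg Diff(B/A) ≤ ∑_{p ∈ T} (n - #primesOver p)` then
* the different exponent at every prime over `T` is exactly `e - 1`;
* every prime not over `T` does not divide the different (hence is unramified).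
-/
import Mathlib
import Fermat.Agent.S18lib.RHCount.Dedekind

set_option autoImplicit false
set_option linter.style.haveILetI false

noncomputable section

namespace Fermat.Agent.S18lib.Squeeze

open UniqueFactorizationMonoid Module
open Fermat.Agent.S18lib.RHCount

attribute [local instance] FractionRing.liftAlgebra FractionRing.isScalarTower_liftAlgebra

variable (A : Type*) {B : Type*} [CommRing A] [CommRing B] [Algebra A B]
  [IsDedekindDomain A] [IsDedekindDomain B] [IsTorsionFree A B] [Module.Finite A B]
  [Algebra.IsSeparable (FractionRing A) (FractionRing B)]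
  (hf : ∀ P : Ideal B, P.IsPrime → P ≠ ⊥ → P.inertiaDeg A = 1)

include hf in
/-- **Equality case of the Riemann–Hurwitz lower bound.** -/
theorem count_eq_of_card_le (T : Finset (Ideal A)) (hT : ∀ p ∈ T, p.IsMaximal ∧ p ≠ ⊥)
    (hle : (Multiset.card (normalizedFactors (differentIdeal A B)) : ℤ) ≤
      ∑ p ∈ T, ((finrank A B : ℤ) - (IsDedekindDomain.primesOverFinset p B).card)) :
    (∀ p ∈ T, ∀ P ∈ IsDedekindDomain.primesOverFinset p B,
      ((normalizedFactors (differentIdeal A B)).count P : ℤ) = (P.ramificationIdx A : ℤ) - 1) ∧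
    (∀ P : Ideal B, (∀ p ∈ T, P ∉ IsDedekindDomain.primesOverFinset p B) →
      (normalizedFactors (differentIdeal A B)).count P = 0) := by
  classical
  set D := normalizedFactors (differentIdeal A B) with hD
  have hdisj : (T : Set (Ideal A)).PairwiseDisjoint
      (fun p => IsDedekindDomain.primesOverFinset p B) := by
    intro p hp p' hp' hpp'
    haveI := (hT p hp).1
    haveI := (hT p' hp').1
    exact disjoint_primesOverFinset A (hT p hp).2 (hT p' hp').2 hpp'
  set U := T.biUnion (fun p => IsDedekindDomain.primesOverFinset p B) with hU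
  -- termwise lower bound
  have hterm : ∀ P ∈ U, (P.ramificationIdx A : ℤ) - 1 ≤ (D.count P : ℤ) := by
    intro P hP
    obtain ⟨p, hp, hPp⟩ := Finset.mem_biUnion.mp hP
    haveI := (hT p hp).1
    rw [IsDedekindDomain.mem_primesOverFinset_iff (hT p hp).2 B] at hPp
    haveI := hPp.1
    haveI := hPp.2
    have := ramificationIdx_sub_one_le_count A (hT p hp).2 P
    rw [← hD] at this
    omega
  -- the sum of the `e - 1`
  have hsum : ∑ P ∈ U, ((P.ramificationIdx A : ℤ) - 1) =
      ∑ p ∈ T, ((finrank A B : ℤ) - (IsDedekindDomain.primesOverFinset p B).card) := by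
    rw [hU, Finset.sum_biUnion hdisj]
    refine Finset.sum_congr rfl fun p hp => ?_
    haveI := (hT p hp).1
    exact sum_ramificationIdx_sub_one A hf (hT p hp).2
  have hUle : ∑ P ∈ U, ((P.ramificationIdx A : ℤ) - 1) ≤ ∑ P ∈ U, (D.count P : ℤ) :=
    Finset.sum_le_sum hterm
  have hcard : ∀ V : Finset (Ideal B), (∑ P ∈ V, (D.count P : ℤ)) ≤ Multiset.card D := by
    intro V
    rw [← Nat.cast_sum]
    exact_mod_cast sum_count_le_card D V
  constructor
  · intro p hp P hP
    have hPU : P ∈ U := Finset.mem_biUnion.mpr ⟨p, hp, hP⟩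
    have heq : ∑ P ∈ U, ((P.ramificationIdx A : ℤ) - 1) = ∑ P ∈ U, (D.count P : ℤ) := by
      have := hcard U
      omega
    exact ((Finset.sum_eq_sum_iff_of_le hterm).mp heq P hPU).symm
  · intro P0 hP0
    have hP0U : P0 ∉ U := by
      intro h
      obtain ⟨p, hp, hPp⟩ := Finset.mem_biUnion.mp h
      exact hP0 p hp hPp
    have h1 := hcard (insert P0 U)
    rw [Finset.sum_insert hP0U] at h1
    have h2 : (0 : ℤ) ≤ (D.count P0 : ℤ) := Int.natCast_nonneg _
    have : (D.count P0 : ℤ) = 0 := by omega
    exact_mod_cast this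

end Fermat.Agent.S18lib.Squeeze
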