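/-
S18lib / Squeeze / Main (helper6): **(Squeeze)** of memo #3, abstract form, in EXACTLY the variable
block of `S18lib/RRgen` (helper9) and `S18lib/RHCount/RRgenSetting` (helper1):
`K` algebraically closed (any characteristic), `F` finite separable over `RatFunc K`,
`B` / `Binf` Dedekind charts over `K[X]` / `Ainf K`, `x` = image of `X`, `n = [F : K(x)]`.

Let `S : Finset K` ("finite cusps of the `x`-line"), `M : ℕ` with
* `hC : ∑_{a ∈ S} #zeros (x - a) + #poles x ≤ M`       (upper bound for the number of cusps),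
* `hg : 2g - 2 ≤ n (|S| - 1) - M`                        (upper bound for the genus),
where `2g - 2 = -2n + deg Diff(B/K[X]) + deg Diff(Binf/Ainf)` (Riemann–Hurwitz, `RRgen`).
Then everything is forced:
* `card_fin_eq`, `card_inf_eq` : both differents have the minimal possible degree;
* `genus_eq`   : `2g - 2 = n (|S| - 1) - M`;   `card_cusps_eq` : the number of cusps is `M`;
* `count_eq_zero`, `not_dvd_differentIdeal`, `ramificationIdx_eq_one` : the extension is
  unramified at every prime of `B` which does not lie over `S`;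
* `count_eq_fin`, `count_eq_inf` : different exponent `= e - 1` at the primes over `S` and at
  infinity.
-/
import Mathlib
import Fermat.Agent.S18lib.Squeeze.Dedekind
import Fermat.Agent.S18lib.RHCount.RRgenSetting
import Fermat.Agent.S18lib.RRgen.Main

set_option autoImplicit false
set_option linter.style.haveILetI false
set_option linter.unusedSectionVars false

noncomputable section

namespace Fermat.Agent.S18lib.Squeeze

open Polynomial IsDedekindDomain AlgebraicCurve UniqueFactorizationMonoid Module
open Fermat.Agent.ProgramR Fermat.Agent.ProgramR.RHLocal Fermat.Agent.ProgramR.RR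
  Fermat.Agent.ProgramR.Alg
open Fermat.Agent.S18lib.RHCount

attribute [local instance] FractionRing.liftAlgebra FractionRing.isScalarTower_liftAlgebra

variable (K : Type*) [Field K] [IsAlgClosed K]
  (F : Type*) [Field F] [Algebra (RatFunc K) F] [Algebra K F] [IsScalarTower K (RatFunc K) F]
  [FiniteDimensional (RatFunc K) F] [Algebra.IsSeparable (RatFunc K) F]
  (B : Type*) [CommRing B] [IsDedekindDomain B] [Algebra K[X] B] [Module.Finite K[X] B]
  [IsTorsionFree K[X] B] [Algebra B F] [IsFractionRing B F] [Algebra K[X] F]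
  [IsScalarTower K[X] (RatFunc K) F] [IsScalarTower K[X] B F]
  [Algebra K B] [IsScalarTower K B F]
  (Binf : Type*) [CommRing Binf] [IsDedekindDomain Binf] [Algebra (Ainf K) Binf]
  [Module.Finite (Ainf K) Binf] [IsTorsionFree (Ainf K) Binf] [Algebra Binf F]
  [IsFractionRing Binf F] [Algebra (Ainf K) F] [IsScalarTower (Ainf K) (RatFunc K) F]
  [IsScalarTower (Ainf K) Binf F]
  [Algebra K Binf] [IsScalarTower K Binf F]

/-- the hypotheses of the squeeze. -/
structure Hyp (g : ℕ) (S : Finset K) (M : ℕ) : Prop where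
  /-- Riemann–Hurwitz in "degree of the two differents" form (`RRgen.two_mul_genus_sub_two_eq`) -/
  rh : 2 * (g : ℤ) - 2 = -2 * (finrank (RatFunc K) F : ℤ)
      + Multiset.card (normalizedFactors (differentIdeal K[X] B))
      + Multiset.card (normalizedFactors (differentIdeal (Ainf K) Binf))
  /-- at most `M` cusps -/
  cusps_le : (∑ a ∈ S, (Nat.card (Tame.zerosOf (K := K)
      (algebraMap (RatFunc K) F RatFunc.X - algebraMap K F a)) : ℤ))
      + Nat.card (Tame.polesOf (K := K) (algebraMap (RatFunc K) F RatFunc.X)) ≤ M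
  /-- the genus is at most the expected one -/
  genus_le : 2 * (g : ℤ) - 2 ≤ (finrank (RatFunc K) F : ℤ) * ((S.card : ℤ) - 1) - M

namespace Hyp

variable {K F B Binf}
variable {g : ℕ} {S : Finset K} {M : ℕ} (H : Hyp K F B Binf g S M)
include H

/-- lower bounds of `RHCount`, and the three equalities they force. -/
theorem all_eq :
    (Multiset.card (normalizedFactors (differentIdeal K[X] B)) : ℤ) =
      ∑ a ∈ S, ((finrank (RatFunc K) F : ℤ) - Nat.card (Tame.zerosOf (K := K)
        (algebraMap (RatFunc K) F RatFunc.X - algebraMap K F a))) ∧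
    (Multiset.card (normalizedFactors (differentIdeal (Ainf K) Binf)) : ℤ) =
      (finrank (RatFunc K) F : ℤ) - Nat.card (Tame.polesOf (K := K)
        (algebraMap (RatFunc K) F RatFunc.X)) ∧
    (∑ a ∈ S, (Nat.card (Tame.zerosOf (K := K)
      (algebraMap (RatFunc K) F RatFunc.X - algebraMap K F a)) : ℤ))
      + Nat.card (Tame.polesOf (K := K) (algebraMap (RatFunc K) F RatFunc.X)) = M := by
  haveI := isScalarTower_const_poly K F B
  haveI := isSeparable_chart_fin K F B
  haveI := isSeparable_chart_inf K F Binf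
  have h1 := sum_fibre_le_card_differentIdeal (K := K) (R := B) F S
  have h2 := sub_card_polar_le_card_differentIdeal K F Binf
  rw [xOf_eq_xInf K F B, finrank_chart_fin K F B] at h1
  rw [finrank_chart_inf K F Binf] at h2
  have h1' : (∑ a ∈ S, ((finrank (RatFunc K) F : ℤ) - Nat.card (Tame.zerosOf (K := K)
      (algebraMap (RatFunc K) F RatFunc.X - algebraMap K F a)))) ≤
      Multiset.card (normalizedFactors (differentIdeal K[X] B)) := h1
  have h2' : (finrank (RatFunc K) F : ℤ) - Nat.card (Tame.polesOf (K := K)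
      (algebraMap (RatFunc K) F RatFunc.X)) ≤
      Multiset.card (normalizedFactors (differentIdeal (Ainf K) Binf)) := h2
  have hrh := H.rh
  have hc := H.cusps_le
  have hg := H.genus_le
  rw [Finset.sum_sub_distrib, Finset.sum_const, nsmul_eq_mul] at h1' ⊢
  refine ⟨?_, ?_, ?_⟩ <;> nlinarith

theorem card_fin_eq :
    (Multiset.card (normalizedFactors (differentIdeal K[X] B)) : ℤ) =
      ∑ a ∈ S, ((finrank (RatFunc K) F : ℤ) - Nat.card (Tame.zerosOf (K := K)
        (algebraMap (RatFunc K) F RatFunc.X - algebraMap K F a))) := H.all_eq.1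

theorem card_inf_eq :
    (Multiset.card (normalizedFactors (differentIdeal (Ainf K) Binf)) : ℤ) =
      (finrank (RatFunc K) F : ℤ) - Nat.card (Tame.polesOf (K := K)
        (algebraMap (RatFunc K) F RatFunc.X)) := H.all_eq.2.1

/-- the number of cusps is exactly `M`. -/
theorem card_cusps_eq :
    (∑ a ∈ S, (Nat.card (Tame.zerosOf (K := K)
      (algebraMap (RatFunc K) F RatFunc.X - algebraMap K F a)) : ℤ))
      + Nat.card (Tame.polesOf (K := K) (algebraMap (RatFunc K) F RatFunc.X)) = M := H.all_eq.2.2

/-- the genus is exactly the expected one. -/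
theorem genus_eq :
    2 * (g : ℤ) - 2 = (finrank (RatFunc K) F : ℤ) * ((S.card : ℤ) - 1) - M := by
  have h1 := H.card_fin_eq
  have h2 := H.card_inf_eq
  have h3 := H.card_cusps_eq
  have hrh := H.rh
  rw [Finset.sum_sub_distrib, Finset.sum_const, nsmul_eq_mul] at h1
  rw [hrh, h1, h2, ← h3]
  ring

/-- the degree of the finite different is at most the tame contribution of the primes over `S`,
in the form required by `count_eq_of_card_le`. -/
theorem card_fin_le :
    (Multiset.card (normalizedFactors (differentIdeal K[X] B)) : ℤ) ≤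
      ∑ p ∈ S.image (fun a : K => Ideal.span {(X - C a : K[X])}),
        ((finrank K[X] B : ℤ) - (IsDedekindDomain.primesOverFinset p B).card) := by
  classical
  haveI := isScalarTower_const_poly K F B
  rw [Finset.sum_image (fun a _ b _ hab => span_X_sub_C_injective hab), H.card_fin_eq,
    finrank_chart_fin K F B]
  refine le_of_eq (Finset.sum_congr rfl fun a _ => ?_)
  rw [← card_fibre_eq F a, xOf_eq_xInf K F B]
  rfl

theorem image_spec :
    ∀ p ∈ S.image (fun a : K => Ideal.span {(X - C a : K[X])}), p.IsMaximal ∧ p ≠ ⊥ := by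
  classical
  intro p hp
  obtain ⟨a, -, rfl⟩ := Finset.mem_image.mp hp
  exact ⟨span_X_sub_C_isMaximal' a, span_X_sub_C_ne_bot a⟩

/-- **unramified off the cusps, count form.** -/
theorem count_eq_zero (P : HeightOneSpectrum B)
    (hP : ∀ a ∈ S, algebraMap K[X] B (X - C a) ∉ P.asIdeal) :
    (normalizedFactors (differentIdeal K[X] B)).count P.asIdeal = 0 := by
  classical
  haveI := isScalarTower_const_poly K F B
  haveI := isSeparable_chart_fin K F B
  refine (count_eq_of_card_le K[X] (B := B)
    (fun P hP hP0 => inertiaDeg_poly_eq_one K P hP hP0) _ H.image_spec H.card_fin_le).2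
    P.asIdeal (fun p hp hmem => ?_)
  obtain ⟨a, ha, rfl⟩ := Finset.mem_image.mp hp
  haveI := span_X_sub_C_isMaximal' (K := K) a
  rw [IsDedekindDomain.mem_primesOverFinset_iff (span_X_sub_C_ne_bot a) B] at hmem
  apply hP a ha
  have h1 : (X - C a : K[X]) ∈ P.asIdeal.under K[X] := by
    rw [← hmem.2.over]
    exact Ideal.mem_span_singleton_self _
  exact h1

/-- **unramified off the cusps**: the prime does not divide the different. -/
theorem not_dvd_differentIdeal (P : HeightOneSpectrum B)
    (hP : ∀ a ∈ S, algebraMap K[X] B (X - C a) ∉ P.asIdeal) :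
    ¬ P.asIdeal ∣ differentIdeal K[X] B := by
  classical
  haveI := isSeparable_chart_fin K F B
  intro hdvd
  have h0 := H.count_eq_zero P hP
  rw [Multiset.count_eq_zero] at h0
  apply h0
  rw [Ideal.mem_normalizedFactors_iff differentIdeal_ne_bot]
  exact ⟨P.isPrime, Ideal.le_of_dvd hdvd⟩

/-- **unramified off the cusps**: ramification index one. -/
theorem ramificationIdx_eq_one (P : HeightOneSpectrum B)
    (hP : ∀ a ∈ S, algebraMap K[X] B (X - C a) ∉ P.asIdeal) :
    P.asIdeal.ramificationIdx K[X] = 1 := by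
  classical
  haveI := isSeparable_chart_fin K F B
  have hunder0 : P.asIdeal.under K[X] ≠ ⊥ := by
    obtain ⟨y, hyP, hy0⟩ := Submodule.exists_mem_ne_zero_of_ne_bot P.ne_bot
    exact Ideal.comap_ne_bot_of_integral_mem hy0 hyP (Algebra.IsIntegral.isIntegral y)
  haveI := P.isPrime
  haveI hmax : (P.asIdeal.under K[X]).IsMaximal :=
    Ideal.IsPrime.isMaximal (Ideal.comap_isPrime _ _) hunder0
  haveI : P.asIdeal.LiesOver (P.asIdeal.under K[X]) := ⟨rfl⟩
  have h1 := ramificationIdx_sub_one_le_count K[X] hunder0 P.asIdeal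
  rw [H.count_eq_zero P hP] at h1
  have h2 : 0 < P.asIdeal.ramificationIdx K[X] := Ideal.ramificationIdx_pos P.asIdeal K[X]
  omega

/-- **tame exactness at the finite cusps**: different exponent `= e - 1`. -/
theorem count_eq_fin {a : K} (ha : a ∈ S) (P : HeightOneSpectrum B)
    (hP : algebraMap K[X] B (X - C a) ∈ P.asIdeal) :
    ((normalizedFactors (differentIdeal K[X] B)).count P.asIdeal : ℤ) =
      (P.asIdeal.ramificationIdx K[X] : ℤ) - 1 := by
  classical
  haveI := isScalarTower_const_poly K F B
  haveI := isSeparable_chart_fin K F B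
  refine (count_eq_of_card_le K[X] (B := B)
    (fun P hP hP0 => inertiaDeg_poly_eq_one K P hP hP0) _ H.image_spec H.card_fin_le).1
    (Ideal.span {(X - C a : K[X])}) (Finset.mem_image.mpr ⟨a, ha, rfl⟩) P.asIdeal ?_
  haveI := span_X_sub_C_isMaximal' (K := K) a
  rw [IsDedekindDomain.mem_primesOverFinset_iff (span_X_sub_C_ne_bot a) B]
  exact ⟨P.isPrime, ⟨(comap_eq_span_of_mem P a hP).symm⟩⟩

/-- **tame exactness at infinity**: different exponent `= e - 1`. -/
theorem count_eq_inf (P : HeightOneSpectrum Binf) :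
    ((normalizedFactors (differentIdeal (Ainf K) Binf)).count P.asIdeal : ℤ) =
      (P.asIdeal.ramificationIdx (Ainf K) : ℤ) - 1 := by
  classical
  haveI := isSeparable_chart_inf K F Binf
  have hT : ∀ p ∈ ({IsLocalRing.maximalIdeal (Ainf K)} : Finset (Ideal (Ainf K))),
      p.IsMaximal ∧ p ≠ ⊥ := by
    intro p hp
    rw [Finset.mem_singleton] at hp
    subst hp
    exact ⟨inferInstance, maximalIdeal_Ainf_ne_bot K⟩
  have hle : (Multiset.card (normalizedFactors (differentIdeal (Ainf K) Binf)) : ℤ) ≤
      ∑ p ∈ ({IsLocalRing.maximalIdeal (Ainf K)} : Finset (Ideal (Ainf K))),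
        ((finrank (Ainf K) Binf : ℤ) - (IsDedekindDomain.primesOverFinset p Binf).card) := by
    rw [Finset.sum_singleton, H.card_inf_eq, finrank_chart_inf K F Binf,
      ← card_polar_eq K F Binf]
    exact le_refl _
  refine (count_eq_of_card_le (Ainf K) (B := Binf)
    (fun P hP hP0 => inertiaDeg_Ainf_eq_one K P hP hP0) _ hT hle).1
    (IsLocalRing.maximalIdeal (Ainf K)) (Finset.mem_singleton_self _) P.asIdeal ?_
  rw [IsDedekindDomain.mem_primesOverFinset_iff (maximalIdeal_Ainf_ne_bot K) Binf]
  haveI := P.isPrime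
  exact ⟨P.isPrime, ⟨(comap_eq_maximalIdeal' K P.asIdeal P.ne_bot).symm⟩⟩

/-- **unramified off the cusps, Place form**: away from `S`, every zero of `x - a` is simple. -/
theorem ord_sub_eq_one {a : K} (ha : a ∉ S) (v : Place K F)
    (hv : 0 < v.ord (algebraMap (RatFunc K) F RatFunc.X - algebraMap K F a)) :
    v.ord (algebraMap (RatFunc K) F RatFunc.X - algebraMap K F a) = 1 := by
  classical
  haveI := isScalarTower_const_poly K F B
  have hx : RRgen.xF K F ∈ v.toValuationSubring := by
    have h1 : algebraMap (RatFunc K) F RatFunc.X - algebraMap K F a ∈ v.toValuationSubring :=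
      (FF.mem_iff_ord_nonneg v _).mpr hv.le
    have h2 := v.toValuationSubring.add_mem _ _ h1 (v.algebraMap_mem' a)
    rwa [sub_add_cancel] at h2
  have hmem : v ∈ Set.range (RRgen.placeFin K F B) := by
    rw [RRgen.range_placeFin]
    exact hx
  obtain ⟨P, rfl⟩ := hmem
  have hxeq : xOf K B F = algebraMap (RatFunc K) F RatFunc.X := xOf_eq_xInf K F B
  rw [← hxeq] at hv ⊢
  have hne := algebraMap_X_sub_C_ne_zero' K B a
  have hPa : algebraMap K[X] B (X - C a) ∈ P.asIdeal := by
    rw [← FF.ord_algebraMap_pos_iff (K := K) (F := F) P _ hne, algebraMap_X_sub_C_eq]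
    exact hv
  have hP : ∀ a' ∈ S, algebraMap K[X] B (X - C a') ∉ P.asIdeal := by
    intro a' ha' hmem'
    have h1 := comap_eq_span_of_mem P a hPa
    have h2 := comap_eq_span_of_mem P a' hmem'
    have : a = a' := span_X_sub_C_injective (h1.symm.trans h2)
    exact ha (this ▸ ha')
  have h3 := ord_eq_ramificationIdx' (F := F) P a hPa
  rw [H.ramificationIdx_eq_one P hP] at h3
  exact_mod_cast h3

end Hyp

section Genus

/-- the hypotheses of the squeeze for the genus of `RRgen`. -/
theorem hyp_genus (S : Finset K) (M : ℕ)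
    (hM : (∑ a ∈ S, (Nat.card (Tame.zerosOf (K := K)
      (algebraMap (RatFunc K) F RatFunc.X - algebraMap K F a)) : ℤ))
      + Nat.card (Tame.polesOf (K := K) (algebraMap (RatFunc K) F RatFunc.X)) ≤ M)
    (hg : 2 * (RRgen.genus K F B Binf : ℤ) - 2 ≤
      (finrank (RatFunc K) F : ℤ) * ((S.card : ℤ) - 1) - M) :
    Hyp K F B Binf (RRgen.genus K F B Binf) S M :=
  ⟨RRgen.two_mul_genus_sub_two_eq K F B Binf, hM, hg⟩

end Genus

end Fermat.Agent.S18lib.Squeeze
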